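import Fermat.Agent.H3.MW.Interfaces

/-!
# P-MW / GTA-2 (row 782): `FieldPointsStatement`

A finite extension `L` of `ℚ` of degree `n` has `n` distinct embeddings into `ℚ̄`; the matrix
`σ_a (β_b)` is invertible for every basis `β`, and the characteristic polynomial of the
multiplication by `x` is `∏ (X - σ_a x)`.
-/

set_option autoImplicit false

noncomputable section

open Module Polynomial Matrix

namespace Fermat.Agent.H17.MWGta

open Fermat.Agent.H92.MW Fermat.Agent.H3.MW

/-- The intertwining relation `M * T = D * M` for the matrix `M = (σ_a β_b)`, the matrix `T` of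
the multiplication by `x` and the diagonal matrix `D = diag (σ_a x)`. -/
theorem fp_intertwine {K L E : Type*} [Field K] [Field L] [Field E] [Algebra K L] [Algebra K E]
    {n : ℕ} (β : Module.Basis (Fin n) K L) (σ : Fin n → (L →ₐ[K] E)) (x : L) :
    (Matrix.of fun a b => σ a (β b)) *
        (LinearMap.toMatrix β β (LinearMap.mulLeft K x)).map (algebraMap K E) =
      Matrix.diagonal (fun a => σ a x) * (Matrix.of fun a b => σ a (β b)) := by
  ext a b
  rw [Matrix.mul_apply, Matrix.diagonal_mul]
  simp only [Matrix.of_apply, Matrix.map_apply, LinearMap.toMatrix_apply,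
    LinearMap.mulLeft_apply]
  have h : x * β b = ∑ c, (β.repr (x * β b) c) • β c := (β.sum_repr (x * β b)).symm
  have h2 : σ a (x * β b) = ∑ c, σ a (β c) * algebraMap K E (β.repr (x * β b) c) := by
    conv_lhs => rw [h]
    rw [map_sum]
    refine Finset.sum_congr rfl fun c _ => ?_
    rw [Algebra.smul_def, map_mul, AlgHom.commutes, mul_comm]
  rw [← h2, map_mul]

/-- Conjugate matrices have the same characteristic polynomial (intertwining form). -/
theorem fp_charpoly_of_intertwine {E : Type*} [Field E] {n : ℕ}
    (M T D : Matrix (Fin n) (Fin n) E) (hM : M.det ≠ 0) (h : M * T = D * M) :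
    T.charpoly = D.charpoly := by
  have hu : IsUnit M.det := isUnit_iff_ne_zero.mpr hM
  have hMu : IsUnit M := (Matrix.isUnit_iff_isUnit_det M).mpr hu
  obtain ⟨U, rfl⟩ := hMu
  have hD : D = (U : Matrix (Fin n) (Fin n) E) * T * (U : Matrix (Fin n) (Fin n) E)⁻¹ := by
    rw [h, mul_assoc, Matrix.mul_nonsing_inv _ hu, mul_one]
  rw [hD, Matrix.charpoly_units_conj]

theorem fieldPoints : FieldPointsStatement := by
  intro L _ _ _ β
  classical
  have hcard : Fintype.card (L →ₐ[ℚ] QQbar) = finrank ℚ L := AlgHom.card ℚ L QQbar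
  let e : Fin (finrank ℚ L) ≃ (L →ₐ[ℚ] QQbar) := (Fintype.equivFinOfCardEq hcard).symm
  have hdet : (Matrix.of fun a b => e a (β b)).det ≠ 0 := by
    have h1 : (Matrix.of fun a b => e a (β b)) =
        (Algebra.embeddingsMatrixReindex ℚ QQbar β e).transpose := by
      ext a b
      simp [Algebra.embeddingsMatrixReindex, Algebra.embeddingsMatrix, Matrix.reindex_apply,
        Matrix.submatrix_apply]
    rw [h1, Matrix.det_transpose]
    intro h0
    have h2 := Algebra.discr_eq_det_embeddingsMatrixReindex_pow_two ℚ QQbar (⇑β) e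
    rw [h0, zero_pow two_ne_zero] at h2
    have h3 : Algebra.discr ℚ (⇑β) = 0 :=
      (map_eq_zero_iff _ (algebraMap ℚ QQbar).injective).mp h2
    exact Algebra.discr_not_zero_of_basis ℚ β h3
  refine ⟨e, e.injective, hdet, fun x => ?_⟩
  rw [← LinearMap.charpoly_toMatrix (LinearMap.mulLeft ℚ x) β, ← Matrix.charpoly_map,
    ← Matrix.charpoly_diagonal]
  exact fp_charpoly_of_intertwine _ _ _ hdet (fp_intertwine β (fun a => e a) x)

end Fermat.Agent.H17.MWGta
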